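/-
MAZ moduli side, row 710 (F-D2'), part (NP-Phi)(B)  [helper18].

The SHAPE of the modular polynomial of prime level: every `Φ ∈ ℤ[X][Y]` whose image under
`X ↦ j(q)` is `Ψ_ℤ = (Y - j(q^p)) * annPoly p j` (`IG/AN/ModPoly3.PsiZ`) satisfies
`NP58.PhiShape p Φ`: degrees `≤ p + 1` in both variables, monic in `Y`, the coefficient of `X^(p+1)`
is `1` (only in the constant term with respect to `Y`), the coefficient of `X^p Y^p` is `-1`.

Route (helper58, msg 10720): `G := annPoly p j = ∑ g_k Y^k` is monic of degree `p` and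
`∑ V(g_k) j^k = 0`, `V = (q ↦ q^p)`.  The terms have `q`-orders `≡ -k mod p`, so the minimal order is
attained exactly by `k = 0` and `k = p`: `g_0 = -q⁻¹ + O(1)`, and `g_k ∈ ℤ[[q]]` for `0 < k < p`.
Then `Ψ_ℤ.coeff 0 = -j(q^p) g_0`, `Ψ_ℤ.coeff (k+1) = g_k - j(q^p) g_(k+1)`, and for `P ∈ ℤ[X]` the
pole order and leading coefficient of `P(j)` are the degree and the leading coefficient of `P`.
-/
import Mathlib
import Fermat.Agent.IG.AN.ModPoly3
import Fermat.Agent.IG.PR.ThetaV1
import Fermat.Agent.MAZ.NP58.Newton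

set_option autoImplicit false
set_option linter.unusedSectionVars false

noncomputable section

namespace Fermat.Agent.MAZ.NPPhi18

open HahnSeries Polynomial ModularCurve
open Fermat.Agent.IG.AN.SectionKit3 Fermat.Agent.IG.AN.ModPoly3 Fermat.Agent.IG.PR.Interface20

/-! ### Generalities on Laurent series over a domain -/

section General

variable {R : Type*} [CommRing R] [IsDomain R]

theorem order_eq_of_coeff {f : LaurentSeries R} {a : ℤ} (h : ∀ n < a, f.coeff n = 0)
    (ha : f.coeff a ≠ 0) : f.order = a := by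
  refine le_antisymm (order_le_of_coeff_ne_zero ha) ?_
  by_contra hlt
  rw [not_le] at hlt
  exact (ne_zero_of_coeff_ne_zero ha) (coeff_order_eq_zero.1 (h _ hlt))

theorem le_order_of_coeff {f : LaurentSeries R} {a : ℤ} (h : ∀ n < a, f.coeff n = 0)
    (hf : f ≠ 0) : a ≤ f.order := by
  by_contra hlt
  rw [not_le] at hlt
  exact hf (coeff_order_eq_zero.1 (h _ hlt))

/-- Lower bounds for the support multiply, and so do the coefficients at the bounds. -/
theorem coeff_mul_of_bounds {f g : LaurentSeries R} {a b : ℤ}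
    (hf : ∀ n < a, f.coeff n = 0) (hg : ∀ n < b, g.coeff n = 0) :
    (∀ n < a + b, (f * g).coeff n = 0) ∧ (f * g).coeff (a + b) = f.coeff a * g.coeff b := by
  by_cases hf0 : f = 0
  · subst hf0; simp
  by_cases hg0 : g = 0
  · subst hg0; simp
  have ha := le_order_of_coeff hf hf0
  have hb := le_order_of_coeff hg hg0
  have hord := order_mul hf0 hg0
  refine ⟨fun n hn => coeff_eq_zero_of_lt_order (by rw [hord]; omega), ?_⟩
  rcases ha.eq_or_lt with ha' | ha'
  · rcases hb.eq_or_lt with hb' | hb'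
    · rw [ha', hb', coeff_mul_order_add_order, leadingCoeff_eq, leadingCoeff_eq]
    · rw [coeff_eq_zero_of_lt_order (x := f * g) (by rw [hord]; omega),
        coeff_eq_zero_of_lt_order hb', mul_zero]
  · rw [coeff_eq_zero_of_lt_order (x := f * g) (by rw [hord]; omega),
      coeff_eq_zero_of_lt_order ha', zero_mul]

/-- In a vanishing finite sum of Laurent series with a nonzero term, the minimal order among the
nonzero terms is attained at least twice. -/
theorem exists_two_min {ι : Type*} [DecidableEq ι] (s : Finset ι) (t : ι → LaurentSeries R)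
    (h0 : ∑ i ∈ s, t i = 0) (hne : ∃ i ∈ s, t i ≠ 0) :
    ∃ i ∈ s, ∃ j ∈ s, i ≠ j ∧ t i ≠ 0 ∧ t j ≠ 0 ∧ (t i).order = (t j).order ∧
      ∀ l ∈ s, t l ≠ 0 → (t i).order ≤ (t l).order := by
  classical
  have hne' : (s.filter fun i => t i ≠ 0).Nonempty := by
    obtain ⟨i, hi, hti⟩ := hne
    exact ⟨i, Finset.mem_filter.2 ⟨hi, hti⟩⟩
  obtain ⟨i0, hi0, hmin⟩ := Finset.exists_min_image _ (fun i => (t i).order) hne'
  rw [Finset.mem_filter] at hi0
  have hmin' : ∀ l ∈ s, t l ≠ 0 → (t i0).order ≤ (t l).order := fun l hl htl =>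
    hmin l (Finset.mem_filter.2 ⟨hl, htl⟩)
  by_cases hex : ∃ j ∈ s, j ≠ i0 ∧ (t j).coeff (t i0).order ≠ 0
  · obtain ⟨j, hj, hji, hc⟩ := hex
    have htj : t j ≠ 0 := ne_zero_of_coeff_ne_zero hc
    exact ⟨i0, hi0.1, j, hj, Ne.symm hji, hi0.2, htj,
      le_antisymm (hmin' j hj htj) (order_le_of_coeff_ne_zero hc), hmin'⟩
  · exfalso
    push Not at hex
    have hcoeff : (∑ i ∈ s, t i).coeff (t i0).order = (t i0).coeff (t i0).order := by
      rw [HahnSeries.coeff_sum]
      exact Finset.sum_eq_single i0 (fun j hj hji => hex j hj hji) (fun h => absurd hi0.1 h)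
    rw [h0] at hcoeff
    exact hi0.2 (coeff_order_eq_zero.1 hcoeff.symm)

end General

/-! ### Powers of `j` and polynomials in `j` over `ℤ` -/

theorem order_j_pow (k : ℕ) : ((jqModC ℤ) ^ k).order = -(k : ℤ) :=
  order_eq_of_coeff (fun _ hn => coeff_jqModC_pow_of_lt ℤ hn)
    (by rw [coeff_jqModC_pow_self]; exact one_ne_zero)

theorem j_pow_ne_zero (k : ℕ) : (jqModC ℤ) ^ k ≠ 0 :=
  ne_zero_of_coeff_ne_zero (g := -(k : ℤ)) (by rw [coeff_jqModC_pow_self]; exact one_ne_zero)

theorem coeff_intCast_mul (a : ℤ) (f : LaurentSeries ℤ) (n : ℤ) :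
    ((Int.castRingHom (LaurentSeries ℤ)) a * f).coeff n = a * f.coeff n := by
  have h : (Int.castRingHom (LaurentSeries ℤ)) a = HahnSeries.C a := by
    rw [show (Int.castRingHom (LaurentSeries ℤ)) = (HahnSeries.C : ℤ →+* LaurentSeries ℤ) from
      RingHom.ext_int _ _]
  rw [h, HahnSeries.C_mul_eq_smul, HahnSeries.coeff_smul, smul_eq_mul]

/-- The coefficient of `q^(-n)` in `P(j)` is the coefficient of `X^n` in `P`, for `n ≥ deg P`. -/
theorem coeff_evalAt (P : ℤ[X]) (n : ℕ) (hn : P.natDegree ≤ n) :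
    (evalAt ℤ (jqModC ℤ) P).coeff (-(n : ℤ)) = P.coeff n := by
  rw [evalAt, coe_eval₂RingHom, eval₂_eq_sum_range' _ (Nat.lt_succ_of_le hn),
    HahnSeries.coeff_sum, Finset.sum_range_succ]
  rw [Finset.sum_eq_zero, zero_add, coeff_intCast_mul, coeff_jqModC_pow_self, mul_one]
  intro i hi
  rw [Finset.mem_range] at hi
  rw [coeff_intCast_mul, coeff_jqModC_pow_of_lt ℤ (by omega), mul_zero]

/-- A bound on the pole order of `P(j)` bounds the degree of `P`. -/
theorem natDegree_le_of_evalAt (P : ℤ[X]) (m : ℕ)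
    (h : ∀ n < -(m : ℤ), (evalAt ℤ (jqModC ℤ) P).coeff n = 0) : P.natDegree ≤ m := by
  by_contra hlt
  rw [not_le] at hlt
  have h1 := coeff_evalAt P P.natDegree le_rfl
  rw [h _ (by omega)] at h1
  have hP : P ≠ 0 := by
    rintro rfl
    simp at hlt
  exact (leadingCoeff_ne_zero.2 hP) h1.symm

theorem evalAt_injective : Function.Injective (evalAt ℤ (jqModC ℤ)) := by
  rw [injective_iff_map_eq_zero]
  intro P hP
  by_contra hne
  have h1 := coeff_evalAt P P.natDegree le_rfl
  rw [hP, HahnSeries.coeff_zero] at h1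
  exact (leadingCoeff_ne_zero.2 hne) h1.symm

/-! ### The shape of the annihilating polynomial -/

section Ann

variable (p : ℕ) [NeZero p]

/-- **Orders of the coefficients of a monic degree-`p` annihilator of `j` over `ℤ((q^p))`**:
`g_0 = -q⁻¹ + O(1)` and `g_k ∈ ℤ[[q]]` for `0 < k < p`. -/
theorem ann_shape (G : (LaurentSeries ℤ)[X]) (hG : G.Monic) (hdeg : G.natDegree = p)
    (h0 : (G.map (qExpand ℤ p)).eval (jqModC ℤ) = 0) :
    ((∀ n < (-1 : ℤ), (G.coeff 0).coeff n = 0) ∧ (G.coeff 0).coeff (-1) = -1) ∧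
      ∀ k, 1 ≤ k → k < p → ∀ n : ℤ, n < 0 → (G.coeff k).coeff n = 0 := by
  classical
  have hVinj : Function.Injective (qExpand ℤ p) := qExpand_injective p
  set t : ℕ → LaurentSeries ℤ := fun k => qExpand ℤ p (G.coeff k) * (jqModC ℤ) ^ k with ht
  have hsum : ∑ k ∈ Finset.range (p + 1), t k = 0 := by
    have h1 := h0
    rw [eval_eq_sum_range, natDegree_map_eq_of_injective hVinj, hdeg] at h1
    simpa only [ht, coeff_map] using h1
  have hp1 : 1 ≤ p := Nat.one_le_iff_ne_zero.2 (NeZero.ne p)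
  have hp0 : (0 : ℤ) < p := by exact_mod_cast hp1
  -- orders of the nonzero terms
  have hord : ∀ k, t k ≠ 0 → (t k).order = (p : ℤ) * (G.coeff k).order - k := by
    intro k hk
    have h1 : qExpand ℤ p (G.coeff k) ≠ 0 := left_ne_zero_of_mul hk
    show (qExpand ℤ p (G.coeff k) * (jqModC ℤ) ^ k).order = _
    rw [order_mul h1 (j_pow_ne_zero k), Fermat.Agent.IG.PR.ThetaV1.order_qExpand, order_j_pow]
    ring
  have htp : t p = (jqModC ℤ) ^ p := by
    show qExpand ℤ p (G.coeff p) * _ = _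
    have : G.coeff p = 1 := by rw [← hdeg]; exact hG.coeff_natDegree
    rw [this, map_one, one_mul]
  have htp0 : t p ≠ 0 := by rw [htp]; exact j_pow_ne_zero p
  have htpord : (t p).order = -(p : ℤ) := by rw [htp, order_j_pow]
  obtain ⟨i, hi, j, hj, hij, hti, htj, hoij, hmin⟩ :=
    exists_two_min _ t hsum ⟨p, Finset.self_mem_range_succ p, htp0⟩
  rw [Finset.mem_range] at hi hj
  -- the two minimal terms are `0` and `p`
  have hkey : (i = 0 ∧ j = p) ∨ (i = p ∧ j = 0) := by
    have h1 := hoij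
    rw [hord i hti, hord j htj] at h1
    obtain ⟨c, hc⟩ : ∃ c : ℤ, c = (G.coeff i).order - (G.coeff j).order := ⟨_, rfl⟩
    have h2 : (i : ℤ) - j = p * c := by rw [hc]; linarith
    have hc1 : c ≤ 1 := by
      by_contra hcon
      rw [not_le] at hcon
      have : (p : ℤ) * 2 ≤ p * c := by nlinarith
      omega
    have hc2 : -1 ≤ c := by
      by_contra hcon
      rw [not_le] at hcon
      have : (p : ℤ) * c ≤ p * (-2) := by nlinarith
      omega
    have hc0 : c ≠ 0 := by
      intro h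
      rw [h, mul_zero] at h2
      omega
    rcases (by omega : c = 1 ∨ c = -1) with h | h
    · right
      rw [h] at h2
      constructor <;> omega
    · left
      rw [h] at h2
      constructor <;> omega
  have hmin' : ∀ l ∈ Finset.range (p + 1), t l ≠ 0 → -(p : ℤ) ≤ (t l).order := by
    rcases hkey with ⟨rfl, rfl⟩ | ⟨rfl, rfl⟩
    · intro l hl htl
      rw [← htpord, ← hoij]
      exact hmin l hl htl
    · intro l hl htl
      rw [← htpord]
      exact hmin l hl htl
  have ht0 : t 0 ≠ 0 ∧ (t 0).order = -(p : ℤ) := by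
    rcases hkey with ⟨rfl, rfl⟩ | ⟨rfl, rfl⟩
    · exact ⟨hti, by rw [hoij, htpord]⟩
    · exact ⟨htj, by rw [← hoij, htpord]⟩
  -- the order of `g_0`
  have hg0ord : (G.coeff 0).order = -1 := by
    have h1 := hord 0 ht0.1
    rw [ht0.2] at h1
    have h2 : (p : ℤ) * ((G.coeff 0).order + 1) = 0 := by push_cast at h1; linarith
    rcases mul_eq_zero.1 h2 with h3 | h3
    · omega
    · omega
  -- the middle terms have order `> -p`
  have hmid : ∀ k, 1 ≤ k → k < p → (t k).coeff (-(p : ℤ)) = 0 := by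
    intro k hk1 hkp
    by_cases htk : t k = 0
    · rw [htk, HahnSeries.coeff_zero]
    · apply coeff_eq_zero_of_lt_order
      have h1 := hmin' k (Finset.mem_range.2 (by omega)) htk
      have h2 := hord k htk
      rcases h1.eq_or_lt with h3 | h3
      · exfalso
        rw [← h3] at h2
        -- `k = p * (a + 1)`
        have h4 : (k : ℤ) = p * ((G.coeff k).order + 1) := by linarith
        rcases le_or_gt ((G.coeff k).order + 1) 0 with h5 | h5
        · have : (p : ℤ) * ((G.coeff k).order + 1) ≤ 0 := by nlinarith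
          omega
        · have : (p : ℤ) * 1 ≤ p * ((G.coeff k).order + 1) := by nlinarith
          omega
      · exact h3
  refine ⟨⟨fun n hn => coeff_eq_zero_of_lt_order (by rw [hg0ord]; exact hn), ?_⟩, ?_⟩
  · -- leading coefficient of `g_0`
    have h1 : (∑ k ∈ Finset.range (p + 1), t k).coeff (-(p : ℤ)) = 0 := by
      rw [hsum, HahnSeries.coeff_zero]
    rw [HahnSeries.coeff_sum, Finset.sum_eq_add (0 : ℕ) p (by omega)
      (fun c hc hc' => hmid c (by omega) (by have := Finset.mem_range.1 hc; omega))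
      (fun h => absurd (Finset.mem_range.2 (by omega)) h)
      (fun h => absurd (Finset.self_mem_range_succ p) h)] at h1
    rw [htp, coeff_jqModC_pow_self] at h1
    have h2 : (t 0).coeff (-(p : ℤ)) = (G.coeff 0).coeff (-1) := by
      show (qExpand ℤ p (G.coeff 0) * (jqModC ℤ) ^ 0).coeff _ = _
      rw [pow_zero, mul_one, show -(p : ℤ) = (p : ℤ) * (-1) by ring, qExpand_coeff_mul]
    rw [h2] at h1
    linarith
  · -- the middle coefficients are integral
    intro k hk1 hkp n hn
    by_cases hgk : G.coeff k = 0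
    · rw [hgk, HahnSeries.coeff_zero]
    · have htk : t k ≠ 0 :=
        mul_ne_zero (fun h => hgk (hVinj (by rw [h, map_zero]))) (j_pow_ne_zero k)
      have h1 := hmin' k (Finset.mem_range.2 (by omega)) htk
      rw [hord k htk] at h1
      apply coeff_eq_zero_of_lt_order
      by_contra hcon
      rw [not_lt] at hcon
      have h5 : (G.coeff k).order ≤ -1 := by omega
      have : (p : ℤ) * (G.coeff k).order ≤ p * (-1) := by nlinarith
      omega

end Ann

/-! ### The coefficients of `Ψ_ℤ` -/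

section Psi

variable (p : ℕ) [NeZero p]

theorem coeff_jp_of_lt {n : ℤ} (hn : n < -(p : ℤ)) : (qExpand ℤ p (jqModC ℤ)).coeff n = 0 := by
  by_cases hd : (p : ℤ) ∣ n
  · obtain ⟨m, rfl⟩ := hd
    rw [qExpand_coeff_mul]
    apply coeff_jqModC_of_lt
    by_contra hcon
    rw [not_lt] at hcon
    have hp0 : (0 : ℤ) < p := by exact_mod_cast Nat.pos_of_ne_zero (NeZero.ne p)
    have : (p : ℤ) * (-1) ≤ p * m := by nlinarith
    omega
  · exact qExpand_coeff_of_not_dvd p _ hd

theorem coeff_jp_neg : (qExpand ℤ p (jqModC ℤ)).coeff (-(p : ℤ)) = 1 := by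
  rw [show -(p : ℤ) = (p : ℤ) * (-1) by ring, qExpand_coeff_mul, coeff_jqModC_neg_one]

theorem PsiZ_coeff_zero :
    (PsiZ p).coeff 0 = -(qExpand ℤ p (jqModC ℤ) * (annPoly p (jqModC ℤ)).coeff 0) := by
  rw [PsiZ, sub_mul, Polynomial.coeff_sub, mul_coeff_zero, coeff_X_zero, zero_mul, coeff_C_mul,
    zero_sub]

theorem PsiZ_coeff_succ (k : ℕ) :
    (PsiZ p).coeff (k + 1) = (annPoly p (jqModC ℤ)).coeff k -
      qExpand ℤ p (jqModC ℤ) * (annPoly p (jqModC ℤ)).coeff (k + 1) := by
  rw [PsiZ, sub_mul, Polynomial.coeff_sub, coeff_X_mul, coeff_C_mul]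

/-- The pole orders and leading coefficients of the coefficients of `Ψ_ℤ`. -/
theorem PsiZ_facts (hp : 2 ≤ p) :
    ((∀ n < -((p : ℤ) + 1), ((PsiZ p).coeff 0).coeff n = 0) ∧
        ((PsiZ p).coeff 0).coeff (-((p : ℤ) + 1)) = 1) ∧
      (∀ k, 1 ≤ k → k ≤ p → ∀ n < -(p : ℤ), ((PsiZ p).coeff k).coeff n = 0) ∧
      ((PsiZ p).coeff p).coeff (-(p : ℤ)) = -1 := by
  obtain ⟨⟨hg0lo, hg0lead⟩, hgmid⟩ := ann_shape p (annPoly p (jqModC ℤ)) (annPoly_monic p _)
    (annPoly_natDegree p _) (eval_map_annPoly p _)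
  have hgp : (annPoly p (jqModC ℤ)).coeff p = 1 := by
    have h := (annPoly_monic p (jqModC ℤ)).coeff_natDegree
    rwa [annPoly_natDegree] at h
  -- all `g_k`, `1 ≤ k ≤ p`, are integral
  have hglo : ∀ k, 1 ≤ k → k ≤ p → ∀ n : ℤ, n < 0 →
      ((annPoly p (jqModC ℤ)).coeff k).coeff n = 0 := by
    intro k hk1 hkp n hn
    rcases hkp.eq_or_lt with rfl | hlt
    · rw [hgp, HahnSeries.coeff_one, if_neg (by omega)]
    · exact hgmid k hk1 hlt n hn
  have hp0 : (0 : ℤ) < p := by exact_mod_cast (by omega : 0 < p)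
  refine ⟨?_, ?_, ?_⟩
  · obtain ⟨h1, h2⟩ := coeff_mul_of_bounds (a := -(p : ℤ)) (b := -1)
      (fun n hn => coeff_jp_of_lt p hn) hg0lo
    rw [PsiZ_coeff_zero]
    constructor
    · intro n hn
      rw [HahnSeries.coeff_neg, h1 n (by omega), neg_zero]
    · rw [HahnSeries.coeff_neg, show -((p : ℤ) + 1) = -(p : ℤ) + -1 by ring, h2, coeff_jp_neg,
        hg0lead]
      norm_num
  · intro k hk1 hkp n hn
    obtain ⟨k', rfl⟩ : ∃ k', k = k' + 1 := ⟨k - 1, by omega⟩
    rw [PsiZ_coeff_succ, HahnSeries.coeff_sub]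
    have h1 : ((annPoly p (jqModC ℤ)).coeff k').coeff n = 0 := by
      rcases Nat.eq_zero_or_pos k' with rfl | hk'
      · exact hg0lo n (by omega)
      · exact hglo k' hk' (by omega) n (by omega)
    have h2 := (coeff_mul_of_bounds (a := -(p : ℤ)) (b := 0)
      (fun n hn => coeff_jp_of_lt p hn) (hglo (k' + 1) (by omega) hkp)).1 n (by omega)
    rw [h1, h2, sub_zero]
  · obtain ⟨k', hk'⟩ : ∃ k', p = k' + 1 := ⟨p - 1, by omega⟩
    have h3 := PsiZ_coeff_succ p k'
    rw [← hk'] at h3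
    rw [h3, HahnSeries.coeff_sub, hglo k' (by omega) (by omega) _ (by omega), hgp, mul_one,
      coeff_jp_neg]
    norm_num

/-- **(NP-Phi)(B)**: the shape of the modular polynomial of level `p ≥ 2`. -/
theorem phiShape_of_map_eq (hp : 2 ≤ p) (Φ : Polynomial (Polynomial ℤ))
    (hΦ : Φ.map (evalAt ℤ (jqModC ℤ)) = PsiZ p) : Fermat.Agent.MAZ.NP58.PhiShape p Φ := by
  obtain ⟨⟨hZ0lo, hZ0lead⟩, hZk, hZp⟩ := PsiZ_facts p hp
  have hco : ∀ k, evalAt ℤ (jqModC ℤ) (Φ.coeff k) = (PsiZ p).coeff k := fun k => by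
    rw [← hΦ, coeff_map]
  have hPtop : (PsiZ p).coeff (p + 1) = 1 := by
    have h := (PsiZ_monic p).coeff_natDegree
    rwa [PsiZ_natDegree] at h
  have hPbig : ∀ k, p + 1 < k → (PsiZ p).coeff k = 0 := fun k hk =>
    coeff_eq_zero_of_natDegree_lt (by rw [PsiZ_natDegree]; exact hk)
  have hbig : ∀ k, p + 1 < k → Φ.coeff k = 0 := fun k hk =>
    evalAt_injective (by rw [hco, hPbig k hk, map_zero])
  have htop : Φ.coeff (p + 1) = 1 := evalAt_injective (by rw [hco, hPtop, map_one])
  -- uniform bound on the pole orders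
  have hB : ∀ k, ∀ n < -((p : ℤ) + 1), ((PsiZ p).coeff k).coeff n = 0 := by
    intro k n hn
    rcases Nat.eq_zero_or_pos k with rfl | hk
    · exact hZ0lo n hn
    · rcases le_or_gt k p with hkp | hkp
      · exact hZk k hk hkp n (by omega)
      · rcases (Nat.succ_le_of_lt hkp).eq_or_lt with h | h
        · rw [← h, Nat.succ_eq_add_one, hPtop, HahnSeries.coeff_one, if_neg (by omega)]
        · rw [hPbig k h, HahnSeries.coeff_zero]
  have hdegk : ∀ k, (Φ.coeff k).natDegree ≤ p + 1 := fun k =>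
    natDegree_le_of_evalAt _ (p + 1) (by
      rw [hco]
      intro n hn
      exact hB k n (by push_cast at hn; exact hn))
  refine ⟨?_, htop, ?_, ?_⟩
  · rintro i k (h | h)
    · exact coeff_eq_zero_of_natDegree_lt (lt_of_le_of_lt (hdegk k) h)
    · rw [hbig k h, Polynomial.coeff_zero]
  · intro k
    have h1 := coeff_evalAt (Φ.coeff k) (p + 1) (hdegk k)
    rw [hco] at h1
    rw [← h1]
    push_cast
    rcases Nat.eq_zero_or_pos k with rfl | hk
    · rw [if_pos rfl, hZ0lead]
    · rw [if_neg (by omega)]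
      rcases le_or_gt k p with hkp | hkp
      · exact hZk k hk hkp _ (by omega)
      · rcases (Nat.succ_le_of_lt hkp).eq_or_lt with h | h
        · rw [← h, Nat.succ_eq_add_one, hPtop, HahnSeries.coeff_one, if_neg (by omega)]
        · rw [hPbig k h, HahnSeries.coeff_zero]
  · have hdp : (Φ.coeff p).natDegree ≤ p :=
      natDegree_le_of_evalAt _ p (by rw [hco]; exact hZk p (by omega) le_rfl)
    have h1 := coeff_evalAt (Φ.coeff p) p hdp
    rw [hco, hZp] at h1
    exact h1.symm

end Psi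

end Fermat.Agent.MAZ.NPPhi18
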